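import Mathlib
import Fermat.Agent.S41.Spec.PD

/-!
# Row S41, block PD, leaf HEIS-U (helper236)

`cuspSumZero : Spec.ManinRepExistsStatement → Spec.CuspSumZeroStatement`:
a torsion-trivial homomorphism `χ : Γ → A` sums to `0` over every `T`-orbit system.

Proof: `χ = φ_f` for a Manin cocycle `f` (D1); `χ (h⁻¹ T^w h) = f (T^w) (h x₀) = ∑_{j<w} f T (T^j h x₀)`;
the points `T^j hᵢ x₀` enumerate `X` exactly once, and `∑ₓ f T x = ∑ₓ (m (U x) - m x) = 0`.
-/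

set_option autoImplicit false

namespace Fermat.Agent.S41.H236

open CongruenceSubgroup Matrix.SpecialLinearGroup ModularGroup
open scoped MatrixGroups
open Fermat.Agent.S41.Spec

universe u

section Cocycle

variable {G : Type*} [Group G] {X : Type*} [MulAction G X] {A : Type*} [AddCommGroup A]

theorem cocycle_one_h236 (f : G → X → A)
    (hcoc : ∀ (g h : G) (x : X), f (g * h) x = f h x + f g (h • x)) (x : X) : f 1 x = 0 := by
  have h1 := hcoc 1 1 x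
  rw [one_mul, one_smul] at h1
  exact left_eq_add.mp h1

theorem cocycle_inv_h236 (f : G → X → A)
    (hcoc : ∀ (g h : G) (x : X), f (g * h) x = f h x + f g (h • x)) (g : G) (x : X) :
    f g x + f g⁻¹ (g • x) = 0 := by
  rw [← hcoc, inv_mul_cancel, cocycle_one_h236 f hcoc]

theorem cocycle_pow_h236 (f : G → X → A)
    (hcoc : ∀ (g h : G) (x : X), f (g * h) x = f h x + f g (h • x)) (t : G) (k : ℕ) (x : X) :
    f (t ^ k) x = ∑ j ∈ Finset.range k, f t (t ^ j • x) := by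
  induction k with
  | zero => rw [pow_zero, Finset.sum_range_zero, cocycle_one_h236 f hcoc]
  | succ k ih =>
    rw [pow_succ', hcoc, ih, Finset.sum_range_succ]

/-- The value of a cocycle on a conjugate `h⁻¹ t h` fixing `x`. -/
theorem cocycle_conj_h236 (f : G → X → A)
    (hcoc : ∀ (g h : G) (x : X), f (g * h) x = f h x + f g (h • x)) (h t : G) (x : X)
    (hfix : (h⁻¹ * t * h) • x = x) : f (h⁻¹ * t * h) x = f t (h • x) := by
  have h1 : t • h • x = h • x := by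
    have h2 : h • (h⁻¹ * t * h) • x = h • x := by rw [hfix]
    rwa [smul_smul, ← mul_assoc, ← mul_assoc, mul_inv_cancel, one_mul, mul_smul] at h2
  rw [hcoc, hcoc, h1]
  have h3 := cocycle_inv_h236 f hcoc h x
  rw [add_comm (f t (h • x)), ← add_assoc, h3, zero_add]

end Cocycle

/-- **HEIS-U**: a torsion-trivial homomorphism sums to `0` over a `T`-orbit system. -/
theorem cuspSumZero (d1 : Spec.ManinRepExistsStatement.{u}) : Spec.CuspSumZeroStatement.{u} := by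
  classical
  intro Γ _ hneg A _ χ htors ι _ γ h w hsys
  obtain ⟨hwpos, hγ, huniq⟩ := hsys
  obtain ⟨m, f, ⟨hcoc, hS, hU⟩, hχ⟩ := d1 Γ hneg A χ htors
  let _ : Fintype (SL(2, ℤ) ⧸ Γ) := Subgroup.fintypeQuotientOfFiniteIndex
  -- `f S⁻¹ = 0`
  have hSinv : ∀ y : SL(2, ℤ) ⧸ Γ, f S⁻¹ y = 0 := by
    intro y
    have h1 := cocycle_inv_h236 f hcoc S (S⁻¹ • y)
    rw [hS, zero_add, smul_inv_smul] at h1
    exact h1
  -- `f T = f (S * T)`
  have hT : ∀ y : SL(2, ℤ) ⧸ Γ, f T y = m ((S * T) • y) - m y := by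
    intro y
    have h1 := hcoc S⁻¹ (S * T) y
    rw [inv_mul_cancel_left, hSinv, add_zero, hU] at h1
    exact h1
  -- the value at `γ i`
  have hval : ∀ i : ι, χ (Additive.ofMul (γ i)) =
      ∑ j : Fin (w i), f T (((T ^ (j : ℕ) * h i : SL(2, ℤ)) : SL(2, ℤ) ⧸ Γ)) := by
    intro i
    rw [hχ, hγ i]
    have hfix : ((h i)⁻¹ * T ^ (w i) * h i) • (((1 : SL(2, ℤ)) : SL(2, ℤ) ⧸ Γ)) =
        (((1 : SL(2, ℤ)) : SL(2, ℤ) ⧸ Γ)) := by
      show ((((h i)⁻¹ * T ^ (w i) * h i) * 1 : SL(2, ℤ)) : SL(2, ℤ) ⧸ Γ) = _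
      rw [QuotientGroup.eq, mul_one, mul_one, ← hγ i]
      exact Γ.inv_mem (γ i).2
    rw [cocycle_conj_h236 f hcoc (h i) (T ^ (w i)) _ hfix, cocycle_pow_h236 f hcoc,
      ← Fin.sum_univ_eq_sum_range (fun j => f T (T ^ j • h i • (((1 : SL(2, ℤ)) : SL(2, ℤ) ⧸ Γ))))]
    refine Finset.sum_congr rfl fun j _ => ?_
    congr 1
    show ((T ^ (j : ℕ) * (h i * 1) : SL(2, ℤ)) : SL(2, ℤ) ⧸ Γ) = _
    rw [mul_one]
  -- enumerate `X`
  have hbij : Function.Bijective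
      (fun p : (Σ i, Fin (w i)) => ((T ^ (p.2 : ℕ) * h p.1 : SL(2, ℤ)) : SL(2, ℤ) ⧸ Γ)) := by
    constructor
    · intro p p' hpp
      obtain ⟨p₀, -, hp₀⟩ := huniq ((T ^ (p.2 : ℕ) * h p.1 : SL(2, ℤ)) : SL(2, ℤ) ⧸ Γ)
      rw [hp₀ p rfl, hp₀ p' hpp]
    · intro x
      obtain ⟨p₀, hp, -⟩ := huniq x
      exact ⟨p₀, hp.symm⟩
  rw [Finset.sum_congr rfl fun i _ => hval i, ← Fintype.sum_sigma
    (fun p : (Σ i, Fin (w i)) => f T (((T ^ (p.2 : ℕ) * h p.1 : SL(2, ℤ)) : SL(2, ℤ) ⧸ Γ)))]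
  rw [Fintype.sum_bijective _ hbij _ (fun x => f T x) (fun _ => rfl)]
  rw [Finset.sum_congr rfl fun x _ => hT x, Finset.sum_sub_distrib, sub_eq_zero]
  exact Equiv.sum_comp (MulAction.toPerm (S * T) : Equiv.Perm (SL(2, ℤ) ⧸ Γ)) m

end Fermat.Agent.S41.H236
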