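import Mathlib
import Fermat.Agent.S41.Spec.PD

/-!
# Row S41, block PD, leaves TR-1 and TR-3 (helper236)

* `quotientMapOfLE_smul_h236` : `π (g • x') = g • π x'` for `π : G ⧸ Γ' → G ⧸ Γ`.
* `maninRepRes : Spec.ManinRepResStatement` (TR-1): restriction is pull-back of Manin symbols.
* `maninFormAdjoint : Spec.ManinFormAdjointStatement` (TR-3): push-forward of parabolic data and
  the adjunction formula for the Manin form.
-/

set_option autoImplicit false

namespace Fermat.Agent.S41.H236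

open CongruenceSubgroup Matrix.SpecialLinearGroup ModularGroup
open scoped MatrixGroups
open Fermat.Agent.S41.Spec

universe u

section Equivariance

variable {G : Type*} [Group G] {Γ' Γ : Subgroup G}

/-- The projection `G ⧸ Γ' → G ⧸ Γ` is `G`-equivariant. -/
theorem quotientMapOfLE_smul_h236 (hle : Γ' ≤ Γ) (g : G) (x' : G ⧸ Γ') :
    Subgroup.quotientMapOfLE hle (g • x') = g • Subgroup.quotientMapOfLE hle x' := by
  induction x' using QuotientGroup.induction_on with
  | H a => rfl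

/-- The fibre sum over `g • x` is the fibre sum over `x` of the translated function. -/
theorem fibreSum_smul_h236 [Fintype (G ⧸ Γ')] [DecidableEq (G ⧸ Γ)] {A : Type*} [AddCommMonoid A]
    (hle : Γ' ≤ Γ) (g : G) (e : G ⧸ Γ' → A) (x : G ⧸ Γ) :
    (∑ x' ∈ Finset.univ.filter (fun x' => Subgroup.quotientMapOfLE hle x' = g • x), e x') =
      ∑ y ∈ Finset.univ.filter (fun y => Subgroup.quotientMapOfLE hle y = x), e (g • y) := by
  symm
  refine Finset.sum_bij' (fun y _ => g • y) (fun x' _ => g⁻¹ • x') ?_ ?_ ?_ ?_ ?_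
  · intro y hy
    rw [Finset.mem_filter] at hy ⊢
    exact ⟨Finset.mem_univ _, by rw [quotientMapOfLE_smul_h236, hy.2]⟩
  · intro x' hx'
    rw [Finset.mem_filter] at hx' ⊢
    exact ⟨Finset.mem_univ _, by rw [quotientMapOfLE_smul_h236, hx'.2, inv_smul_smul]⟩
  · intro y _; exact inv_smul_smul g y
  · intro x' _; exact smul_inv_smul g x'
  · intro y _; rfl

end Equivariance

/-- The push-forward of a function along `π : G ⧸ Γ' → G ⧸ Γ` written as a `Finset` sum. -/
theorem finsum_fibre_eq_sum_h236 {G : Type*} [Group G] {Γ' Γ : Subgroup G} [Fintype (G ⧸ Γ')]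
    [DecidableEq (G ⧸ Γ)] {A : Type*} [AddCommMonoid A] (hle : Γ' ≤ Γ) (e : G ⧸ Γ' → A)
    (x : G ⧸ Γ) :
    (∑ᶠ (x' : G ⧸ Γ') (_ : Subgroup.quotientMapOfLE hle x' = x), e x') =
      ∑ x' ∈ Finset.univ.filter (fun x' => Subgroup.quotientMapOfLE hle x' = x), e x' := by
  classical
  rw [finsum_eq_sum_of_fintype, Finset.sum_filter]
  refine Finset.sum_congr rfl fun x' _ => ?_
  rw [finsum_eq_if]

/-- **TR-1**: restriction is pull-back of Manin symbols. -/
theorem maninRepRes : Spec.ManinRepResStatement.{u} := by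
  intro Γ' Γ hle A _ φ m hrep
  obtain ⟨f, ⟨hcoc, hS, hU⟩, hφ⟩ := hrep
  refine ⟨fun g x' => f g (Subgroup.quotientMapOfLE hle x'), ⟨?_, ?_, ?_⟩, ?_⟩
  · intro g h x'
    show f (g * h) _ = f h _ + f g (Subgroup.quotientMapOfLE hle (h • x'))
    rw [quotientMapOfLE_smul_h236, hcoc]
  · intro x'; exact hS _
  · intro x'
    show f (S * T) _ = m (Subgroup.quotientMapOfLE hle ((S * T) • x')) - _
    rw [quotientMapOfLE_smul_h236, hU]
  · intro γ
    show φ (Additive.ofMul (Subgroup.inclusion hle γ)) = _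
    rw [hφ]
    rfl

/-- **TR-3**: push-forward of parabolic data, and the adjunction for the Manin form. -/
theorem maninFormAdjoint : Spec.ManinFormAdjointStatement.{u} := by
  classical
  intro Γ' Γ _ hle R _ m m' e' hpar
  have : Γ.FiniteIndex := Subgroup.finiteIndex_of_le hle
  let _ : Fintype (SL(2, ℤ) ⧸ Γ') := Subgroup.fintypeQuotientOfFiniteIndex
  let _ : Fintype (SL(2, ℤ) ⧸ Γ) := Subgroup.fintypeQuotientOfFiniteIndex
  have key : ∀ (a : SL(2, ℤ) ⧸ Γ' → R) (g : SL(2, ℤ)) (x : SL(2, ℤ) ⧸ Γ),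
      (∑ᶠ (x' : SL(2, ℤ) ⧸ Γ') (_ : Subgroup.quotientMapOfLE hle x' = g • x), a x') =
        ∑ y ∈ Finset.univ.filter (fun y => Subgroup.quotientMapOfLE hle y = x), a (g • y) := by
    intro a g x
    rw [finsum_fibre_eq_sum_h236, fibreSum_smul_h236]
  have key1 : ∀ (a : SL(2, ℤ) ⧸ Γ' → R) (x : SL(2, ℤ) ⧸ Γ),
      (∑ᶠ (x' : SL(2, ℤ) ⧸ Γ') (_ : Subgroup.quotientMapOfLE hle x' = x), a x') =
        ∑ y ∈ Finset.univ.filter (fun y => Subgroup.quotientMapOfLE hle y = x), a y := by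
    intro a x
    rw [finsum_fibre_eq_sum_h236]
  refine ⟨?_, ?_⟩
  · intro x
    show (∑ᶠ (x' : SL(2, ℤ) ⧸ Γ') (_ : Subgroup.quotientMapOfLE hle x' = T • x), e' x') -
        (∑ᶠ (x' : SL(2, ℤ) ⧸ Γ') (_ : Subgroup.quotientMapOfLE hle x' = x), e' x') =
      (∑ᶠ (x' : SL(2, ℤ) ⧸ Γ') (_ : Subgroup.quotientMapOfLE hle x' = (S * T) • x), m' x') -
        (∑ᶠ (x' : SL(2, ℤ) ⧸ Γ') (_ : Subgroup.quotientMapOfLE hle x' = x), m' x')
    rw [key e' T x, key m' (S * T) x, key1 e' x, key1 m' x, ← Finset.sum_sub_distrib,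
      ← Finset.sum_sub_distrib]
    exact Finset.sum_congr rfl fun y _ => hpar y
  · rw [maninForm_eq_sum, maninForm_eq_sum]
    rw [← Finset.sum_fiberwise (s := Finset.univ) (g := Subgroup.quotientMapOfLE hle)]
    refine Finset.sum_congr rfl fun x _ => ?_
    rw [key e' S x, key1 e' x, ← Finset.sum_sub_distrib, Finset.mul_sum]
    refine Finset.sum_congr rfl fun y hy => ?_
    rw [Finset.mem_filter] at hy
    rw [hy.2]

end Fermat.Agent.S41.H236
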