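import Mathlib
import Fermat.Agent.S41.Spec.PD

/-!
# Row S41, block PD, leaf TR-4 (helper236)

* `trf_eq_transfer_h236` : `transferAlong ι ψ` is Mathlib's transfer of ANY homomorphism `χ` on ANY subgroup
  `K = ι.range` which corresponds to `ψ` under `ι`.
* `trf_of_not_h236` : `transferAlong ι ψ = 0` if `ι` is not injective with finite-index range.
* `transferAlongEquiv : Spec.TransferAlongEquivStatement` (TR-4).
-/

set_option autoImplicit false

namespace Fermat.Agent.S41.H236

open Fermat.Agent.S41.Spec

universe u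

section

variable {G H : Type*} [Group G] [Group H] {A : Type*} [AddCommGroup A]

theorem trf_of_not_h236 (ι : H →* G) (h : ¬ (Function.Injective ι ∧ ι.range.FiniteIndex))
    (ψ : Additive H →+ A) : transferAlong ι ψ = 0 := by
  unfold transferAlong
  rw [dif_neg h]

theorem trf_def_h236 (ι : H →* G) (h : Function.Injective ι ∧ ι.range.FiniteIndex)
    (ψ : Additive H →+ A) :
    transferAlong ι ψ = haveI := h.2
      MonoidHom.toAdditiveLeft
        (MonoidHom.transfer
          ((AddMonoidHom.toMultiplicativeRight ψ).comp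
            (MonoidHom.ofInjective h.1).symm.toMonoidHom)) := by
  unfold transferAlong
  rw [dif_pos h]

/-- `transferAlong ι ψ` is the transfer of any `χ : K →* Multiplicative A`, `K = ι.range`, with `χ ∘ ι = ψ`. -/
theorem trf_eq_transfer_h236 (ι : H →* G) (hι : Function.Injective ι) (K : Subgroup G)
    [K.FiniteIndex] (hK : ι.range = K) (ψ : Additive H →+ A) (χ : K →* Multiplicative A)
    (hχ : ∀ (h : H) (hk : ι h ∈ K), χ ⟨ι h, hk⟩ = Multiplicative.ofAdd (ψ (Additive.ofMul h))) :
    transferAlong ι ψ = MonoidHom.toAdditiveLeft (MonoidHom.transfer χ) := by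
  subst hK
  rw [trf_def_h236 ι ⟨hι, inferInstance⟩]
  congr 2
  ext ⟨k, hk⟩
  obtain ⟨h, rfl⟩ := hk
  rw [hχ h ⟨h, rfl⟩]
  have h1 : (MonoidHom.ofInjective hι).symm ⟨ι h, ⟨h, rfl⟩⟩ = h := by
    apply (MonoidHom.ofInjective hι).injective
    rw [MulEquiv.apply_symm_apply]
    rfl
  show Multiplicative.ofAdd (ψ (Additive.ofMul ((MonoidHom.ofInjective hι).symm ⟨ι h, _⟩))) = _
  rw [h1]
  rfl

end

/-- **TR-4**: transfer along `f' ∘ e`, `e` an isomorphism. -/
theorem transferAlongEquiv : Spec.TransferAlongEquivStatement.{u} := by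
  intro H H' G _ _ _ e f' A _ ψ
  have hrange : (f'.comp e.toMonoidHom).range = f'.range := by
    ext g
    constructor
    · rintro ⟨h, rfl⟩; exact ⟨e h, rfl⟩
    · rintro ⟨h', rfl⟩; exact ⟨e.symm h', by simp⟩
  have hinj : Function.Injective (f'.comp e.toMonoidHom) ↔ Function.Injective f' := by
    constructor
    · intro h a b hab
      have := h (a₁ := e.symm a) (a₂ := e.symm b) (by simpa using hab)
      exact e.symm.injective this
    · intro h
      exact h.comp e.injective
  by_cases hf : Function.Injective f' ∧ f'.range.FiniteIndex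
  · have := hf.2
    rw [trf_def_h236 f' hf]
    refine trf_eq_transfer_h236 (f'.comp e.toMonoidHom) (hinj.mpr hf.1) f'.range hrange ψ _ ?_
    intro h hk
    have h1 : (MonoidHom.ofInjective hf.1).symm ⟨(f'.comp e.toMonoidHom) h, hk⟩ = e h := by
      apply (MonoidHom.ofInjective hf.1).injective
      rw [MulEquiv.apply_symm_apply]
      rfl
    show Multiplicative.ofAdd ((ψ.comp (MonoidHom.toAdditive e.symm.toMonoidHom))
      (Additive.ofMul ((MonoidHom.ofInjective hf.1).symm ⟨(f'.comp e.toMonoidHom) h, hk⟩))) = _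
    rw [h1]
    show Multiplicative.ofAdd (ψ (Additive.ofMul (e.symm (e h)))) = _
    rw [MulEquiv.symm_apply_apply]
  · rw [trf_of_not_h236 f' hf, trf_of_not_h236]
    rw [hinj, hrange]
    exact hf

end Fermat.Agent.S41.H236
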