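import Mathlib
import Fermat.Agent.S41.Spec.PD
import Fermat.Agent.S41.H236.PDTr1
import Fermat.Agent.S41.H236.PDTr4

/-!
# Row S41, block PD, leaf TR-2 (helper236)

* `transfer_eq_prod_section_h236` : Mathlib's transfer in a section `F : G ⧸ K → G`.
* `trf_inclusion_eq_fibreSum_h236` : for a cocycle `f'` on `G ⧸ Γ'` inducing `ψ` on `Γ'`, the transfer
  of `ψ` to `Γ ≥ Γ'` is the sum of `f' γ` over the fibre of `G ⧸ Γ' → G ⧸ Γ` over the base point.
* `maninRepCores : Spec.ManinRepCoresStatement` (TR-2): the transfer is push-forward of Manin symbols.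
-/

set_option autoImplicit false

namespace Fermat.Agent.S41.H236

open CongruenceSubgroup Matrix.SpecialLinearGroup ModularGroup
open scoped MatrixGroups
open Fermat.Agent.S41.Spec

universe u

section TransferSection

variable {G : Type*} [Group G] {K : Subgroup G} {B : Type*} [CommGroup B]

theorem section_mem_h236 (F : G ⧸ K → G) (hF : ∀ q : G ⧸ K, (F q : G ⧸ K) = q) (g : G)
    (q : G ⧸ K) : (F q)⁻¹ * (g * F (g⁻¹ • q)) ∈ K := by
  have h1 : ((F q : G) : G ⧸ K) = ((g * F (g⁻¹ • q) : G) : G ⧸ K) := by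
    rw [hF]
    have h2 : ((g * F (g⁻¹ • q) : G) : G ⧸ K) = g • ((F (g⁻¹ • q) : G) : G ⧸ K) := rfl
    rw [h2, hF, smul_inv_smul]
  exact QuotientGroup.eq.mp h1

/-- Mathlib's transfer computed in a section `F` of `G → G ⧸ K`. -/
theorem transfer_eq_prod_section_h236 [K.FiniteIndex] [Fintype (G ⧸ K)] (ϕ : K →* B)
    (F : G ⧸ K → G) (hF : ∀ q : G ⧸ K, (F q : G ⧸ K) = q) (g : G) :
    MonoidHom.transfer ϕ g =
      ∏ q : G ⧸ K, ϕ ⟨(F q)⁻¹ * (g * F (g⁻¹ • q)), section_mem_h236 F hF g q⟩ := by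
  classical
  let T : K.LeftTransversal := ⟨Set.range F, Subgroup.isComplement_range_left hF⟩
  have hT : ∀ q : G ⧸ K, (T.2.leftQuotientEquiv q : G) = F q :=
    fun q => Subgroup.IsComplement.leftQuotientEquiv_apply hF q
  rw [MonoidHom.transfer_def ϕ T g]
  unfold Subgroup.leftTransversals.diff
  simp only
  refine Finset.prod_congr (by ext; simp) fun q _ => ?_
  congr 1
  apply Subtype.ext
  show ((T.2.leftQuotientEquiv q : G))⁻¹ * ((g • T).2.leftQuotientEquiv q : G) = _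
  rw [Subgroup.smul_apply_eq_smul_apply_inv_smul, hT, hT]
  rfl

end TransferSection

section Cores

variable {G : Type*} [Group G] {Γ' Γ : Subgroup G} {A : Type*} [AddCommGroup A]

/-- The character on `Γ'.subgroupOf Γ` induced by `ψ`. -/
noncomputable def subChar_h236 (hle : Γ' ≤ Γ) (ψ : Additive Γ' →+ A) :
    (Γ'.subgroupOf Γ) →* Multiplicative A :=
  (AddMonoidHom.toMultiplicativeRight ψ).comp (Subgroup.subgroupOfEquivOfLe hle).toMonoidHom

theorem subChar_apply_h236 (hle : Γ' ≤ Γ) (ψ : Additive Γ' →+ A) (k : Γ'.subgroupOf Γ) :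
    subChar_h236 hle ψ k =
      Multiplicative.ofAdd (ψ (Additive.ofMul ⟨((k : Γ) : G), Subgroup.mem_subgroupOf.mp k.2⟩)) :=
  rfl

theorem trf_inclusion_h236 [Γ'.FiniteIndex] (hle : Γ' ≤ Γ) (ψ : Additive Γ' →+ A) :
    transferAlong (Subgroup.inclusion hle) ψ =
      MonoidHom.toAdditiveLeft (MonoidHom.transfer (subChar_h236 hle ψ)) := by
  refine trf_eq_transfer_h236 (Subgroup.inclusion hle) (Subgroup.inclusion_injective hle)
    (Γ'.subgroupOf Γ) (Subgroup.inclusion_range hle) ψ _ ?_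
  intro h hk
  rw [subChar_apply_h236]
  rfl

/-- The map `Γ ⧸ (Γ'.subgroupOf Γ) → G ⧸ Γ'`, `y ↦ y Γ'`, through a section. -/
theorem fibre_bij_h236 [Fintype (G ⧸ Γ')] [Fintype (Γ ⧸ Γ'.subgroupOf Γ)] [DecidableEq (G ⧸ Γ)]
    (hle : Γ' ≤ Γ) (F : Γ ⧸ Γ'.subgroupOf Γ → Γ)
    (hF : ∀ q, (F q : Γ ⧸ Γ'.subgroupOf Γ) = q) (a : G ⧸ Γ' → A) :
    (∑ x' ∈ Finset.univ.filter
        (fun x' => Subgroup.quotientMapOfLE hle x' = (((1 : G) : G ⧸ Γ))), a x') =
      ∑ q : Γ ⧸ Γ'.subgroupOf Γ, a ((((F q : Γ) : G)) : G ⧸ Γ') := by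
  symm
  refine Finset.sum_bij (fun q _ => ((((F q : Γ) : G)) : G ⧸ Γ')) ?_ ?_ ?_ ?_
  · intro q _
    rw [Finset.mem_filter]
    refine ⟨Finset.mem_univ _, ?_⟩
    show ((((F q : Γ) : G)) : G ⧸ Γ) = (((1 : G) : G ⧸ Γ))
    rw [QuotientGroup.eq, mul_one]
    exact Γ.inv_mem (F q).2
  · intro q _ q₂ _ h
    have h1 := QuotientGroup.eq.mp h
    have h2 : (F q)⁻¹ * F q₂ ∈ Γ'.subgroupOf Γ := Subgroup.mem_subgroupOf.mpr h1
    have h3 : ((F q : Γ) : Γ ⧸ Γ'.subgroupOf Γ) = ((F q₂ : Γ) : Γ ⧸ Γ'.subgroupOf Γ) :=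
      QuotientGroup.eq.mpr h2
    rwa [hF, hF] at h3
  · intro x' hx'
    rw [Finset.mem_filter] at hx'
    induction x' using QuotientGroup.induction_on with
    | H g =>
      have hg : g ∈ Γ := by
        have h1 : ((g : G) : G ⧸ Γ) = (((1 : G) : G ⧸ Γ)) := hx'.2
        have h2 := QuotientGroup.eq.mp h1
        rw [mul_one] at h2
        have h3 := Γ.inv_mem h2
        rwa [inv_inv] at h3
      refine ⟨((⟨g, hg⟩ : Γ) : Γ ⧸ Γ'.subgroupOf Γ), Finset.mem_univ _, ?_⟩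
      rw [QuotientGroup.eq]
      have h4 : ((F ((⟨g, hg⟩ : Γ) : Γ ⧸ Γ'.subgroupOf Γ) : Γ) : Γ ⧸ Γ'.subgroupOf Γ) =
          ((⟨g, hg⟩ : Γ) : Γ ⧸ Γ'.subgroupOf Γ) := hF _
      have h5 := QuotientGroup.eq.mp h4
      exact Subgroup.mem_subgroupOf.mp h5
  · intro q _; rfl

/-- For a cocycle `f'` on `G ⧸ Γ'` inducing `ψ` on `Γ'`, the transfer of `ψ` to `Γ` is the sum of
`f' γ` over the fibre over the base point. -/
theorem trf_inclusion_eq_fibreSum_h236 [Γ'.FiniteIndex] [Fintype (G ⧸ Γ')]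
    [DecidableEq (G ⧸ Γ)] (hle : Γ' ≤ Γ)
    (ψ : Additive Γ' →+ A) (f' : G → G ⧸ Γ' → A)
    (hcoc : ∀ (g h : G) (x : G ⧸ Γ'), f' (g * h) x = f' h x + f' g (h • x))
    (hψ : ∀ γ' : Γ', ψ (Additive.ofMul γ') = f' (γ' : G) ((1 : G) : G ⧸ Γ')) (γ : Γ) :
    transferAlong (Subgroup.inclusion hle) ψ (Additive.ofMul γ) =
      ∑ x' ∈ Finset.univ.filter
        (fun x' => Subgroup.quotientMapOfLE hle x' = (((1 : G) : G ⧸ Γ))), f' (γ : G) x' := by
  classical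
  let _ : Fintype (Γ ⧸ Γ'.subgroupOf Γ) := Subgroup.fintypeQuotientOfFiniteIndex
  set F : Γ ⧸ Γ'.subgroupOf Γ → Γ := fun q => q.out with hFdef
  have hF : ∀ q, (F q : Γ ⧸ Γ'.subgroupOf Γ) = q := fun q => QuotientGroup.out_eq' q
  set n : G → A := fun g => f' g ((1 : G) : G ⧸ Γ') with hn
  -- (a)
  have ha : ∀ (g : G) (γ' : Γ'), n (g * γ') = n g + ψ (Additive.ofMul γ') := by
    intro g γ'
    show f' (g * γ') _ = f' g _ + _
    rw [hcoc, hψ]
    have h1 : ((γ' : G)) • (((1 : G) : G ⧸ Γ')) = (((1 : G) : G ⧸ Γ')) := by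
      show (((γ' : G) * 1 : G) : G ⧸ Γ') = _
      rw [QuotientGroup.eq, mul_one, mul_one]
      exact Γ'.inv_mem γ'.2
    rw [h1, add_comm]
  -- (b)
  have hb : ∀ (g y : G), f' g ((y : G) : G ⧸ Γ') = n (g * y) - n y := by
    intro g y
    show _ = f' (g * y) _ - f' y _
    rw [hcoc]
    have h1 : y • (((1 : G) : G ⧸ Γ')) = ((y : G) : G ⧸ Γ') := by
      show (((y * 1 : G)) : G ⧸ Γ') = _
      rw [mul_one]
    rw [h1]
    abel
  rw [fibre_bij_h236 hle F hF, trf_inclusion_h236 hle ψ]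
  show Multiplicative.toAdd (MonoidHom.transfer (subChar_h236 hle ψ) γ) = _
  rw [transfer_eq_prod_section_h236 (subChar_h236 hle ψ) F hF γ, toAdd_prod]
  have hterm : ∀ q : Γ ⧸ Γ'.subgroupOf Γ,
      Multiplicative.toAdd (subChar_h236 hle ψ
        ⟨(F q)⁻¹ * (γ * F (γ⁻¹ • q)), section_mem_h236 F hF γ q⟩) =
        n (((γ * F (γ⁻¹ • q) : Γ) : G)) - n ((F q : Γ) : G) := by
    intro q
    rw [subChar_apply_h236]
    have h1 := ha ((F q : Γ) : G)
      ⟨(((F q)⁻¹ * (γ * F (γ⁻¹ • q)) : Γ) : G),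
        Subgroup.mem_subgroupOf.mp (section_mem_h236 F hF γ q)⟩
    have h2 : ((F q : Γ) : G) * (((F q)⁻¹ * (γ * F (γ⁻¹ • q)) : Γ) : G) =
        ((γ * F (γ⁻¹ • q) : Γ) : G) := by
      rw [← Subgroup.coe_mul, mul_inv_cancel_left]
    simp only at h1
    rw [h2] at h1
    rw [h1]
    show ψ _ = _
    abel
  rw [Finset.sum_congr rfl fun q _ => hterm q, Finset.sum_sub_distrib]
  have hre : (∑ q : Γ ⧸ Γ'.subgroupOf Γ, n (((γ * F (γ⁻¹ • q) : Γ) : G))) =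
      ∑ q : Γ ⧸ Γ'.subgroupOf Γ, n (((γ * F q : Γ) : G)) :=
    Equiv.sum_comp (MulAction.toPerm (γ⁻¹ : Γ) : Equiv.Perm (Γ ⧸ Γ'.subgroupOf Γ))
      (fun q => n (((γ * F q : Γ) : G)))
  rw [hre, ← Finset.sum_sub_distrib]
  refine Finset.sum_congr rfl fun q _ => ?_
  rw [hb]
  rfl

end Cores

/-- **TR-2**: the transfer is push-forward of Manin symbols. -/
theorem maninRepCores : Spec.ManinRepCoresStatement.{u} := by
  classical
  intro Γ' Γ _ hle A _ ψ m' hrep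
  let _ : Fintype (SL(2, ℤ) ⧸ Γ') := Subgroup.fintypeQuotientOfFiniteIndex
  obtain ⟨f', ⟨hcoc, hS, hU⟩, hψ⟩ := hrep
  have key : ∀ (a : SL(2, ℤ) ⧸ Γ' → A) (g : SL(2, ℤ)) (x : SL(2, ℤ) ⧸ Γ),
      (∑ᶠ (x' : SL(2, ℤ) ⧸ Γ') (_ : Subgroup.quotientMapOfLE hle x' = g • x), a x') =
        ∑ y ∈ Finset.univ.filter (fun y => Subgroup.quotientMapOfLE hle y = x), a (g • y) := by
    intro a g x
    rw [finsum_fibre_eq_sum_h236, fibreSum_smul_h236]
  have key1 : ∀ (a : SL(2, ℤ) ⧸ Γ' → A) (x : SL(2, ℤ) ⧸ Γ),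
      (∑ᶠ (x' : SL(2, ℤ) ⧸ Γ') (_ : Subgroup.quotientMapOfLE hle x' = x), a x') =
        ∑ y ∈ Finset.univ.filter (fun y => Subgroup.quotientMapOfLE hle y = x), a y := by
    intro a x
    rw [finsum_fibre_eq_sum_h236]
  refine ⟨fun g x => ∑ x' ∈ Finset.univ.filter
      (fun x' => Subgroup.quotientMapOfLE hle x' = x), f' g x', ⟨?_, ?_, ?_⟩, ?_⟩
  · intro g h x
    show (∑ x' ∈ Finset.univ.filter (fun x' => Subgroup.quotientMapOfLE hle x' = x),
        f' (g * h) x') =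
      (∑ x' ∈ Finset.univ.filter (fun x' => Subgroup.quotientMapOfLE hle x' = x), f' h x') +
        ∑ x' ∈ Finset.univ.filter (fun x' => Subgroup.quotientMapOfLE hle x' = h • x), f' g x'
    rw [fibreSum_smul_h236, ← Finset.sum_add_distrib]
    exact Finset.sum_congr rfl fun y _ => hcoc g h y
  · intro x
    exact Finset.sum_eq_zero fun y _ => hS y
  · intro x
    show (∑ x' ∈ Finset.univ.filter (fun x' => Subgroup.quotientMapOfLE hle x' = x),
        f' (S * T) x') =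
      (∑ᶠ (x' : SL(2, ℤ) ⧸ Γ') (_ : Subgroup.quotientMapOfLE hle x' = (S * T) • x), m' x') -
        (∑ᶠ (x' : SL(2, ℤ) ⧸ Γ') (_ : Subgroup.quotientMapOfLE hle x' = x), m' x')
    rw [key m' (S * T) x, key1 m' x, ← Finset.sum_sub_distrib]
    exact Finset.sum_congr rfl fun y _ => hU y
  · intro γ
    exact trf_inclusion_eq_fibreSum_h236 hle ψ f' hcoc hψ γ

end Fermat.Agent.S41.H236
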